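/-
S25 U5c: classes of degree zero over a ring as points of the Jacobian.
-/
import Fermat.Agent.Jac.Deg0
import Fermat.Agent.Jac.Valuative

set_option autoImplicit false
set_option linter.style.haveILetI false

noncomputable section

universe u

open CategoryTheory CategoryTheory.Limits AlgebraicGeometry NeronModelInfra AlgebraicGeometry.RelPicard
  GoodReductionJacobian

namespace Fermat.Agent.Jac.CurveModel

variable {k : Type u} [Field k] {C : Scheme.{u}} {c : C ⟶ Spec (CommRingCat.of k)}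
  {ε : SchemeHomOver (𝟙 (Spec (CommRingCat.of k))) c} [IsProper c]

theorem pullback_postComp {T T' T'' : Scheme.{u}} {t : T ⟶ Spec (CommRingCat.of k)}
    {t' : T' ⟶ Spec (CommRingCat.of k)} {t'' : T'' ⟶ Spec (CommRingCat.of k)}
    (L : RigidifiedLineBundle c ε t) (φ : SchemeHomOver t' t) (ψ : SchemeHomOver t'' t') :
    Nonempty ((L.pullbackAlong (postComp φ ψ)).L ≅ ((L.pullbackAlong φ).pullbackAlong ψ).L) :=
  ⟨(Scheme.Modules.pullbackCongr (baseChangeSnd_comp c φ ψ).symm).app L.L ≪≫
    ((Scheme.Modules.pullbackComp _ _).app L.L).symm⟩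

variable (M : CurveModel c ε)

/-- Over a local ring every line bundle comes from Laurent series. -/
theorem exists_lat_of_isLocalRing {R : Type u} [CommRing R] [Algebra k R] [IsLocalRing R]
    (L : RigidifiedLineBundle c ε (specBase k R)) :
    ∃ W : M.D.Lat R, Nonempty (L.L ≅ (M.bundle W).L) := by
  obtain ⟨f, hf, W, ⟨e⟩⟩ := M.exists_bundle_iso L (IsLocalRing.maximalIdeal R)
  have hu : IsUnit f := by rwa [IsLocalRing.notMem_maximalIdeal] at hf
  let ψ : R →ₐ[k] Localization.Away f := IsScalarTower.toAlgHom k R (Localization.Away f)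
  let ψ' : Localization.Away f →ₐ[k] R :=
    { IsLocalization.Away.lift f (g := RingHom.id R) hu with
      commutes' := fun r => by
        show IsLocalization.Away.lift f hu (algebraMap k (Localization.Away f) r) = _
        rw [IsScalarTower.algebraMap_apply k R (Localization.Away f), IsLocalization.Away.lift_eq]
        rfl }
  have hc : ψ'.comp ψ = AlgHom.id k R :=
    AlgHom.ext fun r => IsLocalization.Away.lift_eq f hu r
  have hid : postComp (specMap ψ) (specMap ψ') =
      (⟨𝟙 _, Category.id_comp _⟩ : SchemeHomOver (specBase k R) (specBase k R)) := Subtype.ext (by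
    show Spec.map _ ≫ Spec.map _ = 𝟙 _
    rw [← Spec.map_comp, ← Spec.map_id]
    exact congrArg Spec.map (CommRingCat.hom_ext (RingHom.ext fun r => AlgHom.congr_fun hc r)))
  refine ⟨M.D.latMap ψ' W, ?_⟩
  obtain ⟨e1⟩ := pullback_postComp L (specMap ψ) (specMap ψ')
  rw [hid] at e1
  obtain ⟨e2⟩ := RigidifiedLineBundle.pullbackAlong_congr (specMap ψ') ⟨e⟩
  obtain ⟨e3⟩ := M.bundle_pullbackAlong ψ' W
  exact ⟨((Scheme.Modules.pullbackId _).app L.L).symm ≪≫
    (Scheme.Modules.pullbackCongr (baseChangeSnd_id c (specBase k R)).symm).app L.L ≪≫ e1 ≪≫ e2 ≪≫ e3⟩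

variable {B B' : Type u} [CommRing B] [Algebra k B] [CommRing B'] [Algebra k B']

omit [IsProper c] in
theorem exists_eq_specMap (s : SchemeHomOver (specBase k B') (specBase k B)) :
    ∃ φ : B →ₐ[k] B', s = specMap φ := by
  obtain ⟨f, hf⟩ := Spec.map_surjective s.1
  have h := s.2
  rw [← hf, specBase, specBase, ← Spec.map_comp] at h
  have h' := congrArg CommRingCat.Hom.hom (Spec.map_injective h)
  let φ : B →ₐ[k] B' := { f.hom with commutes' := fun r => RingHom.congr_fun h' r }
  exact ⟨φ, Subtype.ext hf.symm⟩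

theorem degZero_of_degFibrewise {W : M.D.Lat B} (h : M.DegFibrewise (M.bundle W)) : W.DegZero := by
  refine (CurveData.degZero_iff_forall_prime W).mpr fun p hp => ?_
  haveI := hp
  let L := AlgebraicClosure p.ResidueField
  let φ : B →ₐ[k] L :=
    (IsScalarTower.toAlgHom k p.ResidueField L).comp (IsScalarTower.toAlgHom k B p.ResidueField)
  have hW := h L (specMap φ) (M.D.latMap φ W) (M.bundle_pullbackAlong φ W)
  refine ⟨L, inferInstance, inferInstance, φ, ?_, ?_⟩
  · ext x
    exact RingHom.mem_ker.trans ((map_eq_zero (algebraMap p.ResidueField L)).trans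
      Ideal.algebraMap_residueField_eq_zero)
  · have := hW L (AlgHom.id k L)
    rwa [CurveData.latMap_id] at this

theorem degFibrewise_bundle {W : M.D.Lat B} (hW : W.DegZero) : M.DegFibrewise (M.bundle W) := by
  intro K _ _ _ s V hV
  obtain ⟨φ, rfl⟩ := exists_eq_specMap s
  obtain ⟨e⟩ := M.bundle_pullbackAlong φ W
  exact CurveData.DegZero.of_sameClass (CurveData.DegZero.latMap hW φ)
    ((M.bundle_iso_iff _ _).mp ⟨e.symm ≪≫ hV.some⟩)

variable {M} (J : M.PicData)

/-- The point of a class of degree zero. -/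
def PicData.pt (W : M.D.Lat B) (hW : W.DegZero) : SchemeHomOver (specBase k B) J.D.toBase :=
  (J.univ _ (M.bundle W) (M.degFibrewise_bundle hW)).choose

theorem PicData.pt_spec (W : M.D.Lat B) (hW : W.DegZero) :
    Nonempty ((J.P.pullbackAlong (J.pt W hW)).L ≅ (M.bundle W).L) :=
  (J.univ _ (M.bundle W) (M.degFibrewise_bundle hW)).choose_spec.1

theorem PicData.eq_pt {W : M.D.Lat B} (hW : W.DegZero) {g : SchemeHomOver (specBase k B) J.D.toBase}
    (h : Nonempty ((J.P.pullbackAlong g).L ≅ (M.bundle W).L)) : g = J.pt W hW :=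
  (J.univ _ (M.bundle W) (M.degFibrewise_bundle hW)).choose_spec.2 g h

theorem PicData.pt_congr {V W : M.D.Lat B} (hV : V.DegZero) (hW : W.DegZero)
    (h : CurveData.SameClass V W) : J.pt V hV = J.pt W hW :=
  J.eq_pt hW ⟨(J.pt_spec V hV).some ≪≫ ((M.bundle_iso_iff V W).mpr h).some⟩

theorem PicData.sameClass_of_pt_eq {V W : M.D.Lat B} (hV : V.DegZero) (hW : W.DegZero)
    (h : J.pt V hV = J.pt W hW) : CurveData.SameClass V W := by
  refine (M.bundle_iso_iff V W).mp ⟨(J.pt_spec V hV).some.symm ≪≫ ?_⟩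
  rw [h]
  exact (J.pt_spec W hW).some

theorem PicData.pt_latMap (φ : B →ₐ[k] B') {W : M.D.Lat B} (hW : W.DegZero) :
    postComp (J.pt W hW) (specMap φ) =
      J.pt (M.D.latMap φ W) (CurveData.DegZero.latMap hW φ) :=
  J.eq_pt _ ⟨(pullback_postComp J.P (J.pt W hW) (specMap φ)).some ≪≫
    (RigidifiedLineBundle.pullbackAlong_congr (specMap φ) (J.pt_spec W hW)).some ≪≫
    (M.bundle_pullbackAlong φ W).some⟩

theorem PicData.pt_latMap_val (φ : B →ₐ[k] B') {W : M.D.Lat B} (hW : W.DegZero) :
    Spec.map (CommRingCat.ofHom (φ : B →+* B')) ≫ (J.pt W hW).1 =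
      (J.pt (M.D.latMap φ W) (CurveData.DegZero.latMap hW φ)).1 :=
  congrArg Subtype.val (J.pt_latMap φ hW)

/-- Points over a local ring come from classes. -/
theorem PicData.exists_eq_pt {R : Type u} [CommRing R] [Algebra k R] [IsLocalRing R]
    (g : SchemeHomOver (specBase k R) J.D.toBase) :
    ∃ (W : M.D.Lat R) (hW : W.DegZero), g = J.pt W hW := by
  obtain ⟨W, hW⟩ := M.exists_lat_of_isLocalRing (J.P.pullbackAlong g)
  exact ⟨W, M.degZero_of_degFibrewise ((J.degFibrewise.pullback g).congr hW), J.eq_pt _ hW⟩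

theorem PicData.pt_one [IsAlgClosed k] :
    (J.pt (1 : M.D.Lat B) CurveData.degZero_one).1 = specBase k B ≫ J.D.zeroSection := by
  let z₀ : SchemeHomOver (𝟙 _) J.D.toBase := ⟨J.D.zeroSection, J.D.zeroSection_toBase⟩
  let s : SchemeHomOver (specBase k B) (𝟙 (Spec (CommRingCat.of k))) :=
    ⟨specBase k B, Category.comp_id _⟩
  have h : Nonempty ((J.P.pullbackAlong (postComp z₀ s)).L ≅ (M.bundle (1 : M.D.Lat B)).L) := by
    obtain ⟨e1⟩ := pullback_postComp J.P z₀ s
    obtain ⟨e2⟩ := RigidifiedLineBundle.pullbackAlong_congr (M := J.P.pullbackAlong z₀)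
      (M' := RigidifiedLineBundle.unit _) s J.zero
    obtain ⟨e3⟩ := M.bundle_one (B := B)
    exact ⟨e1 ≪≫ e2 ≪≫ Scheme.Modules.pullbackUnitIso _ ≪≫ e3.symm⟩
  rw [← J.eq_pt CurveData.degZero_one h]
  rfl

end Fermat.Agent.Jac.CurveModel
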