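/-
S25 U5c: the Jacobian is connected and integral.
-/
import Fermat.Agent.Jac.Proper.Classify
import Fermat.Agent.Jac.Valuative.Infinity
import Fermat.Agent.AbVar.Scheme.Integral

set_option autoImplicit false
set_option linter.style.haveILetI false

noncomputable section

universe u

open CategoryTheory CategoryTheory.Limits AlgebraicGeometry NeronModelInfra AlgebraicGeometry.RelPicard
  GoodReductionJacobian
open scoped TensorProduct

namespace Fermat.Agent.Jac

namespace CurveData

variable {k : Type u} [Field k] [IsAlgClosed k] {D : CurveData k}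

/-- A monic function gives a relation between classes of points. -/
theorem exists_prod_pointClass_one (d : ℕ) (hd : D.gapBound ≤ d) :
    ∃ s : Multiset (D.A →ₐ[k] k),
      s.card = d ∧ SameClass (s.map pointClass).prod (1 : D.Lat k) := by
  let a := D.monoN d
  set φ : LaurentSeries k := D.embB k ((1 : k) ⊗ₜ[k] a) with hφ
  have hcoeff : ∀ i, φ.coeff i = (D.emb a).coeff i := fun i => by
    rw [hφ, embB_one_tmul_coeff]
    rfl
  have htop : φ.coeff (-(d : ℤ)) = 1 := by rw [hcoeff, D.monoN_coeff (D.notMem_gaps hd)]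
  have hφ0 : φ ≠ 0 := fun h => by
    rw [h, HahnSeries.coeff_zero] at htop
    exact zero_ne_one htop
  have hord : φ.order = -(d : ℤ) := by
    refine le_antisymm (HahnSeries.order_le_of_coeff_ne_zero (by rw [htop]; exact one_ne_zero))
      (not_lt.mp fun h => hφ0 (HahnSeries.coeff_order_eq_zero.mp ?_))
    rw [hcoeff]
    exact D.monoN_below d _ h
  have hone : φ ∈ (1 : D.Lat k).toBase :=
    Submodule.mem_one.mpr ⟨⟨φ, embB_mem_reg _⟩, rfl⟩
  obtain ⟨s, hs, hc⟩ := exists_eq_divisor (hasDeg_one (D := D) (K := k))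
    (m := Units.mk0 φ hφ0) hone
  rw [mul_one] at hs
  rw [Units.val_mk0, hord] at hc
  have hcard : s.card = d := by omega
  refine ⟨s, hcard, ?_⟩
  have hord0 : (xPow k (s.card : ℤ) * Units.mk0 φ hφ0 : (LaurentSeries k)ˣ).1.order = 0 := by
    rw [Units.val_mul, Units.val_mk0, HahnSeries.order_mul (Units.ne_zero _) hφ0, hord,
      show (xPow k (s.card : ℤ)).1 = HahnSeries.single (s.card : ℤ) (1 : k) from rfl,
      HahnSeries.order_single one_ne_zero]
    omega
  obtain ⟨u, hu⟩ := exists_powerSeries_unit _ hord0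
  refine SameClass.symm ⟨u, ?_⟩
  rw [mul_one, prod_pointClass, hs, retrivialise, MonoidHom.comp_apply, hu, map_mul]

end CurveData

namespace CurveModel

variable {k : Type u} [Field k] [IsAlgClosed k] {C : Scheme.{u}} {c : C ⟶ Spec (CommRingCat.of k)}
  {ε : SchemeHomOver (𝟙 (Spec (CommRingCat.of k))) c} [IsProper c] {M : CurveModel c ε}
  (J : M.PicData)

/-- The connected component of the point of a class. -/
def PicData.comp (τ : M.D.Lat k) : Set J.D.P :=
  open Classical in
  if h : τ.DegZero then connectedComponent ((J.pt τ h).1 (IsLocalRing.closedPoint k)) else ∅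

omit [IsAlgClosed k] in
theorem PicData.comp_eq {τ : M.D.Lat k} (h : τ.DegZero) :
    J.comp τ = connectedComponent ((J.pt τ h).1 (IsLocalRing.closedPoint k)) := dif_pos h

omit [IsAlgClosed k] in
theorem PicData.comp_congr {τ τ' : M.D.Lat k} (h : τ.DegZero) (e : CurveData.SameClass τ τ') :
    J.comp τ = J.comp τ' := by
  rw [J.comp_eq h, J.comp_eq (CurveData.DegZero.of_sameClass h e),
    J.pt_congr h (CurveData.DegZero.of_sameClass h e) e]

theorem PicData.comp_mul_pointClass {τ : M.D.Lat k} (hτ : τ.DegZero) (σ σ' : M.D.A →ₐ[k] k) :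
    J.comp (τ * CurveData.pointClass σ) = J.comp (τ * CurveData.pointClass σ') := by
  let W : M.D.Lat M.D.A :=
    M.D.latMap (Algebra.ofId k M.D.A) τ * CurveData.pointClass (AlgHom.id k M.D.A)
  have hW : W.DegZero :=
    CurveData.DegZero.mul (CurveData.DegZero.latMap hτ _) (CurveData.degZero_pointClass _)
  have hev : ∀ ρ : M.D.A →ₐ[k] k, M.D.latMap ρ W = τ * CurveData.pointClass ρ := fun ρ => by
    rw [map_mul, CurveData.latMap_pointClass, CurveData.latMap_latMap, AlgHom.comp_id,
      show ρ.comp (Algebra.ofId k M.D.A) = AlgHom.id k k from AlgHom.ext fun r => ρ.commutes r,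
      CurveData.latMap_id]
  have hmem : ∀ ρ : M.D.A →ₐ[k] k, J.comp (τ * CurveData.pointClass ρ) =
      connectedComponent ((J.pt W hW).1
        (Spec.map (CommRingCat.ofHom (ρ : M.D.A →+* k)) (IsLocalRing.closedPoint k))) := fun ρ => by
    rw [← hev ρ, J.comp_eq (CurveData.DegZero.latMap hW ρ)]
    exact congrArg connectedComponent (congrArg
      (fun g : Spec (CommRingCat.of k) ⟶ J.D.P => g (IsLocalRing.closedPoint k))
      (J.pt_latMap_val ρ hW).symm)
  rw [hmem σ, hmem σ']
  haveI : PreconnectedSpace (PrimeSpectrum M.D.A) := inferInstance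
  have hp : _root_.IsPreconnected (Set.range (J.pt W hW).1) :=
    isPreconnected_range (α := PrimeSpectrum M.D.A) (J.pt W hW).1.continuous
  exact (connectedComponent_eq (hp.subset_connectedComponent ⟨_, rfl⟩ ⟨_, rfl⟩))

theorem PicData.comp_mul_prod (σ₀ : M.D.A →ₐ[k] k) (s : Multiset (M.D.A →ₐ[k] k))
    {τ : M.D.Lat k} (hτ : τ.DegZero) :
    J.comp (τ * (s.map CurveData.pointClass).prod) =
      J.comp (τ * CurveData.pointClass σ₀ ^ s.card) := by
  induction s using Multiset.induction_on generalizing τ with
  | empty => simp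
  | cons σ t ih =>
    have hd : ∀ t : Multiset (M.D.A →ₐ[k] k),
        (τ * (t.map CurveData.pointClass).prod).DegZero := by
      intro t
      induction t using Multiset.induction_on with
      | empty => simpa using hτ
      | cons ρ t ih' =>
        rw [Multiset.map_cons, Multiset.prod_cons]
        exact (congrArg CurveData.Lat.DegZero (mul_left_comm τ _ _)).mpr
          (CurveData.DegZero.mul (CurveData.degZero_pointClass ρ) ih')
    rw [Multiset.map_cons, Multiset.prod_cons, Multiset.card_cons, pow_succ']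
    refine (congrArg J.comp ((congrArg (τ * ·) (mul_comm _ _)).trans (mul_assoc _ _ _).symm)).trans ?_
    refine (J.comp_mul_pointClass (hd t) σ σ₀).trans ?_
    refine (congrArg J.comp (mul_right_comm τ _ _)).trans ?_
    exact (ih (CurveData.DegZero.mul hτ (CurveData.degZero_pointClass σ₀))).trans
      (congrArg J.comp (mul_assoc _ _ _))

theorem PicData.comp_mul_point {τ : M.D.Lat k} (hτ : τ.DegZero) (σ : M.D.A →ₐ[k] k) :
    J.comp (τ * CurveData.pointClass σ) = J.comp τ := by
  have key : ∀ d, M.D.gapBound ≤ d → ∀ {τ : M.D.Lat k}, τ.DegZero →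
      J.comp (τ * CurveData.pointClass σ ^ d) = J.comp τ := by
    intro d hd τ hτ
    obtain ⟨s, hs, hc⟩ := CurveData.exists_prod_pointClass_one d hd
    rw [← hs, ← J.comp_mul_prod σ s hτ]
    have := (CurveData.sameClass_refl τ).mul hc
    rw [mul_one] at this
    exact (J.comp_congr hτ this.symm).symm
  have h1 := key M.D.gapBound le_rfl (CurveData.DegZero.mul hτ (CurveData.degZero_pointClass σ))
  have h2 := key (M.D.gapBound + 1) (Nat.le_succ _) hτ
  rw [pow_succ', ← mul_assoc] at h2
  exact h1.symm.trans h2

theorem PicData.comp_eq_one {τ : M.D.Lat k} (hτ : τ.DegZero) : J.comp τ = J.comp 1 := by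
  obtain ⟨s, hs⟩ := CurveData.exists_points τ hτ
  rw [J.comp_congr hτ hs]
  clear hs hτ
  suffices h : ((s.map fun σ => (CurveData.pointClass σ)⁻¹).prod : M.D.Lat k).DegZero ∧
      J.comp (s.map fun σ => (CurveData.pointClass σ)⁻¹).prod = J.comp 1 from h.2
  induction s using Multiset.induction_on with
  | empty => simpa using CurveData.degZero_one
  | cons σ t ih =>
    rw [Multiset.map_cons, Multiset.prod_cons]
    have hd := CurveData.DegZero.mul
      (CurveData.DegZero.inv (CurveData.degZero_pointClass σ)) ih.1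
    refine ⟨hd, ?_⟩
    refine ((J.comp_mul_point hd σ).symm.trans (congrArg J.comp ?_)).trans ih.2
    have e : ∀ {G : Type u} [CommGroup G] (a b : G), a⁻¹ * b * a = b := fun a b => by
      rw [mul_right_comm, inv_mul_cancel, one_mul]
    exact e (G := M.D.Lat k) _ _

theorem PicData.connectedSpace [LocallyOfFiniteType J.D.toBase] : ConnectedSpace J.D.P := by
  haveI : JacobsonSpace J.D.P := LocallyOfFiniteType.jacobsonSpace J.D.toBase
  set e : J.D.P := J.D.zeroSection (IsLocalRing.closedPoint k)
  have he : J.comp 1 = connectedComponent e := by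
    rw [J.comp_eq CurveData.degZero_one]
    refine congrArg connectedComponent ?_
    rw [J.pt_one]
    exact congrArg J.D.zeroSection (Subsingleton.elim (α := PrimeSpectrum k) _ _)
  have hcl : ∀ x : J.D.P, IsClosed {x} → x ∈ connectedComponent e := by
    intro x hx
    have hid : specBase k k = 𝟙 _ := Spec.map_id _
    obtain ⟨W, hW, h⟩ := J.exists_eq_pt (R := k)
      ⟨pointOfClosedPoint J.D.toBase x hx, by rw [hid]; exact pointOfClosedPoint_comp _ _ _⟩
    have hpx : (J.pt W hW).1 (IsLocalRing.closedPoint k) = x := by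
      rw [← h]
      exact pointOfClosedPoint_apply _ _ _ _
    rw [← he, ← J.comp_eq_one hW, J.comp_eq hW, hpx]
    exact mem_connectedComponent
  haveI : Nonempty J.D.P := ⟨e⟩
  haveI : PreconnectedSpace J.D.P := by
    refine preconnectedSpace_iff_clopen.mpr fun U hU => ?_
    by_cases heU : e ∈ U
    · refine Or.inr (Set.compl_empty_iff.mp (Set.not_nonempty_iff_eq_empty.mp fun hne => ?_))
      obtain ⟨x, hxU, hx⟩ := nonempty_inter_closedPoints hne hU.compl.2.isLocallyClosed
      exact hxU (hU.connectedComponent_subset heU (hcl x hx))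
    · refine Or.inl (Set.not_nonempty_iff_eq_empty.mp fun hne => ?_)
      obtain ⟨x, hxU, hx⟩ := nonempty_inter_closedPoints hne hU.2.isLocallyClosed
      exact heU (hU.connectedComponent_subset hxU
        (connectedComponent_eq (hcl x hx) ▸ mem_connectedComponent))
  exact ⟨inferInstance⟩

theorem PicData.isIntegral [Smooth J.D.toBase] : AlgebraicGeometry.IsIntegral J.D.P :=
  haveI := J.connectedSpace
  Fermat.Agent.AbVar.Sch.isIntegral_of_smooth_of_connected J.D.toBase

end CurveModel

end Fermat.Agent.Jac
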