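/-
S25 U5c: integral schemes of finite type over an algebraically closed field are geometrically
integral.
-/
import Fermat.Agent.AbVar.Scheme.Points

set_option autoImplicit false
set_option linter.style.haveILetI false

noncomputable section

universe u

open CategoryTheory CategoryTheory.Limits AlgebraicGeometry
open scoped TensorProduct

namespace Fermat.Agent.Jac

variable {k : Type u} [Field k] [IsAlgClosed k]

/-- Maximal ideals of a finitely generated algebra are kernels of points. -/
theorem exists_algHom_ker_le {A : Type u} [CommRing A] [Algebra k A] [Algebra.FiniteType k A]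
    (m : Ideal A) [m.IsMaximal] : ∃ σ : A →ₐ[k] k, ∀ a, σ a = 0 ↔ a ∈ m := by
  letI := Ideal.Quotient.field m
  haveI : Algebra.FiniteType k (A ⧸ m) := inferInstance
  haveI : Module.Finite k (A ⧸ m) := finite_of_finite_type_of_isJacobsonRing k (A ⧸ m)
  let e : k ≃ₐ[k] (A ⧸ m) :=
    AlgEquiv.ofBijective (Algebra.ofId k (A ⧸ m))
      (IsAlgClosed.algebraMap_bijective_of_isIntegral (k := k) (K := A ⧸ m))
  refine ⟨e.symm.toAlgHom.comp (Ideal.Quotient.mkₐ k m), fun a => ?_⟩
  show e.symm (Ideal.Quotient.mk m a) = 0 ↔ a ∈ m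
  rw [map_eq_zero_iff _ e.symm.injective, Ideal.Quotient.eq_zero_iff_mem]

/-- A finitely generated domain over an algebraically closed field stays a domain after any
extension of the constants. -/
theorem isDomain_tensor_of_isAlgClosed (A K : Type u) [CommRing A] [IsDomain A] [Algebra k A]
    [Algebra.FiniteType k A] [Field K] [Algebra k K] : IsDomain (A ⊗[k] K) := by
  let b := Module.Free.chooseBasis k K
  let bA := Algebra.TensorProduct.basis A b
  let Φ : (A →ₐ[k] k) → (A ⊗[k] K →ₐ[k] K) := fun σ =>
    Algebra.TensorProduct.lift ((Algebra.ofId k K).comp σ) (AlgHom.id k K) fun _ _ => mul_comm _ _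
  have hΦ : ∀ σ x i, b.repr (Φ σ x) i = σ (bA.repr x i) := by
    intro σ x i
    induction x using TensorProduct.induction_on with
    | zero => simp
    | tmul a z =>
      have : Φ σ (a ⊗ₜ[k] z) = σ a • z := by
        rw [Algebra.smul_def]
        exact Algebra.TensorProduct.lift_tmul _ _ _ a z
      rw [this, map_smul]
      simp [bA, mul_comm]
    | add x y hx hy => simp only [map_add, Finsupp.add_apply, hx, hy]
  obtain ⟨m₀, hm₀⟩ := Ideal.exists_maximal A
  obtain ⟨σ₀, -⟩ := exists_algHom_ker_le (k := k) m₀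
  haveI : Nontrivial (A ⊗[k] K) := (Φ σ₀).toRingHom.domain_nontrivial
  haveI : IsJacobsonRing A := isJacobsonRing_of_finiteType (A := k) (B := A)
  haveI : NoZeroDivisors (A ⊗[k] K) := ⟨fun {x y} hxy => by
    by_contra hne
    obtain ⟨hx, hy⟩ := not_or.mp hne
    obtain ⟨i, hi⟩ : ∃ i, bA.repr x i ≠ 0 := by
      by_contra hall
      simp only [not_exists, not_not] at hall
      exact hx (bA.repr.injective (by ext i; simpa using hall i))
    obtain ⟨j, hj⟩ : ∃ j, bA.repr y j ≠ 0 := by
      by_contra hall
      simp only [not_exists, not_not] at hall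
      exact hy (bA.repr.injective (by ext i; simpa using hall i))
    refine mul_ne_zero hi hj ?_
    have hjac : Ideal.jacobson (⊥ : Ideal A) = ⊥ := by
      exact IsJacobsonRing.out' ⊥ Ideal.bot_prime.isRadical
    rw [← Ideal.mem_bot, ← hjac, Ideal.jacobson, Ideal.mem_sInf]
    rintro m ⟨-, hm⟩
    obtain ⟨σ, hσ⟩ := exists_algHom_ker_le (k := k) m
    rw [← hσ, map_mul]
    have h0 : Φ σ x * Φ σ y = 0 := by rw [← map_mul, hxy, map_zero]
    rcases mul_eq_zero.mp h0 with h | h
    · rw [← hΦ σ x i, h, map_zero, Finsupp.zero_apply, zero_mul]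
    · rw [← hΦ σ y j, h, map_zero, Finsupp.zero_apply, mul_zero]⟩
  exact NoZeroDivisors.to_isDomain _

open Fermat.Agent.AbVar.Sch (chartHom fromSpec_comp) in
/-- An integral scheme of finite type over an algebraically closed field is geometrically
integral. -/
theorem geometricallyIntegral_of_isIntegral {X : Scheme.{u}} (f : X ⟶ Spec (CommRingCat.of k))
    [LocallyOfFiniteType f] [AlgebraicGeometry.IsIntegral X] : GeometricallyIntegral f := by
  rw [GeometricallyIntegral.eq_geometrically]
  haveI : ObjectProperty.IsClosedUnderIsomorphisms (C := Scheme.{u}) AlgebraicGeometry.IsIntegral :=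
    ⟨fun e h => haveI := h; IsIntegral.of_isIso e.hom⟩
  refine geometrically_iff_of_commRing_of_isClosedUnderIsomorphisms.mpr ?_
  intro K _ _
  set y := Spec.map (CommRingCat.ofHom (algebraMap k K)) with hy
  haveI : Surjective y := ⟨fun z => ⟨IsLocalRing.closedPoint K, Subsingleton.elim (α := PrimeSpectrum k) _ _⟩⟩
  let P := pullback f y
  let q : P ⟶ X := pullback.fst f y
  have hloc : ∀ x : P, ∃ (Z : Scheme.{u}) (g : Z ⟶ P), IsOpenImmersion g ∧
      AlgebraicGeometry.IsIntegral Z ∧ x ∈ Set.range g ∧
      ∃ U : X.Opens, (U : Set X).Nonempty ∧ Set.range g = q ⁻¹' (U : Set X) := by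
    intro x
    obtain ⟨U, hU, hxU, -⟩ := exists_isAffineOpen_mem_and_subset (X := X) (x := q x) (U := ⊤) trivial
    haveI : Nonempty U := ⟨⟨q x, hxU⟩⟩
    letI : Algebra k Γ(X, U) := (chartHom f U).toAlgebra
    haveI : Algebra.FiniteType k Γ(X, U) := by
      show (chartHom f U).FiniteType
      rw [chartHom, CommRingCat.hom_comp, RingHom.finiteType_respectsIso.cancel_left_isIso]
      exact f.finiteType_appLE (isAffineOpen_top _) hU _
    haveI : IsDomain (Γ(X, U) ⊗[k] K) := isDomain_tensor_of_isAlgClosed (k := k) _ K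
    let e : pullback hU.fromSpec q ≅ Spec (CommRingCat.of (Γ(X, U) ⊗[k] K)) :=
      pullbackRightPullbackFstIso f y hU.fromSpec ≪≫ pullback.congrHom (fromSpec_comp f hU) rfl ≪≫
        pullbackSpecIso k Γ(X, U) K
    haveI : AlgebraicGeometry.IsIntegral (pullback hU.fromSpec q) := IsIntegral.of_isIso e.inv
    have hr : Set.range (pullback.snd hU.fromSpec q) = q ⁻¹' (U : Set X) := by
      rw [Scheme.Pullback.range_snd, hU.range_fromSpec]
    exact ⟨_, pullback.snd hU.fromSpec q, inferInstance, inferInstance,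
      hr ▸ hxU, U, ⟨_, hxU⟩, hr⟩
  choose Z g hg hZ hxg U hUne hU using hloc
  haveI : AlgebraicGeometry.IsReduced P := by
    haveI : ∀ x : P, _root_.IsReduced (P.presheaf.stalk x) := fun x => by
      haveI := hg x
      haveI := hZ x
      obtain ⟨z, hz⟩ := hxg x
      rw [← hz]
      exact isReduced_of_injective ((g x).stalkMap z).hom
        (ConcreteCategory.bijective_of_isIso ((g x).stalkMap z)).1
    exact isReduced_of_isReduced_stalk P
  haveI : Nonempty P := by
    obtain ⟨x, -⟩ := (inferInstance : Surjective q).1 (Classical.arbitrary X)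
    exact ⟨x⟩
  have hpre : ∀ x, _root_.IsPreirreducible (Set.range (g x)) := fun x => by
    haveI := hZ x
    rw [← Set.image_univ]
    exact (IrreducibleSpace.isIrreducible_univ _).2.image _ (g x).continuous.continuousOn
  have hop : ∀ x, IsOpen (Set.range (g x)) := fun x => by
    haveI := hg x
    exact (g x).isOpenEmbedding.isOpen_range
  have hmeet : ∀ x x', (Set.range (g x) ∩ Set.range (g x')).Nonempty := fun x x' => by
    obtain ⟨w, hw⟩ := nonempty_preirreducible_inter (U x).2 (U x').2 (hUne x) (hUne x')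
    obtain ⟨p, rfl⟩ := (inferInstance : Surjective q).1 w
    exact ⟨p, by rw [hU x]; exact hw.1, by rw [hU x']; exact hw.2⟩
  haveI : PreirreducibleSpace P := ⟨fun O O' hO hO' ⟨a, _, ha⟩ ⟨b, _, hb⟩ => by
    obtain ⟨c, -, hc, hc'⟩ := hpre a O _ hO (hop b) ⟨a, hxg a, ha⟩ (hmeet a b)
    obtain ⟨d, -, hd, hd'⟩ := hpre b (O ∩ Set.range (g b)) O' (hO.inter (hop b)) hO'
      ⟨c, hc', hc, hc'⟩ ⟨b, hxg b, hb⟩
    exact ⟨d, trivial, hd.1, hd'⟩⟩
  haveI : IrreducibleSpace P := ⟨inferInstance⟩
  exact isIntegral_of_irreducibleSpace_of_isReduced P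

/-- A geometrically integral morphism is geometrically connected. -/
theorem geometricallyConnected_of_geometricallyIntegral {X Y : Scheme.{u}} (f : X ⟶ Y)
    [GeometricallyIntegral f] : GeometricallyConnected f :=
  ⟨fun K _ y Z fst snd h => by
    haveI : AlgebraicGeometry.IsIntegral Z :=
      GeometricallyIntegral.geometrically_isIntegral (f := f) y fst snd h
    infer_instance⟩

end Fermat.Agent.Jac
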