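/-
S25 U5c: the valuative criteria for the Jacobian.
-/
import Fermat.Agent.Jac.Proper.Classify
import Fermat.Agent.AbVar.Scheme.Points

set_option autoImplicit false
set_option linter.style.haveILetI false

noncomputable section

universe u

open CategoryTheory CategoryTheory.Limits AlgebraicGeometry NeronModelInfra AlgebraicGeometry.RelPicard
  GoodReductionJacobian
open Fermat.Agent.AbVar.Sch (exists_chartHom chartPt_injective range_subset_of_closedPoint_mem
  specMap_ofHom_comp)

namespace Fermat.Agent.Jac.CurveModel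

variable {k : Type u} [Field k] [IsAlgClosed k] {C : Scheme.{u}} {c : C ⟶ Spec (CommRingCat.of k)}
  {ε : SchemeHomOver (𝟙 (Spec (CommRingCat.of k))) c} [IsProper c] {M : CurveModel c ε}
  (J : M.PicData)

/-- The origin of the Jacobian. -/
def PicData.origin : J.D.P := J.D.zeroSection (IsLocalRing.closedPoint k)

theorem PicData.isClosed_origin [LocallyOfFiniteType J.D.toBase] :
    IsClosed ({J.origin} : Set J.D.P) :=
  (pointEquivClosedPoint J.D.toBase ⟨J.D.zeroSection, J.D.zeroSection_toBase⟩).2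

theorem PicData.pt_one_apply {B : Type u} [CommRing B] [Algebra k B]
    (y : Spec (CommRingCat.of B)) :
    (J.pt (1 : M.D.Lat B) CurveData.degZero_one).1 y = J.origin := by
  rw [J.pt_one, Scheme.Hom.comp_apply]
  exact congrArg J.D.zeroSection (Subsingleton.elim (α := PrimeSpectrum k) _ _)

section

variable {R K : Type u} [CommRing R] [IsDomain R] [IsLocalRing R] [Algebra k R] [Field K]
  [Algebra k K] [Algebra R K] [IsScalarTower k R K]

/-- A class over a local domain which is trivial over a larger field is trivial. -/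
theorem PicData.pt_eq_pt_one [LocallyOfFiniteType J.D.toBase]
    (hinj : Function.Injective (algebraMap R K)) {W : M.D.Lat R} (hW : W.DegZero)
    (h : CurveData.SameClass (M.D.latMap (IsScalarTower.toAlgHom k R K) W) 1) :
    J.pt W hW = J.pt 1 CurveData.degZero_one := by
  set ψ := IsScalarTower.toAlgHom k R K
  set m := (J.pt W hW).1 with hm
  set m₁ := (J.pt (1 : M.D.Lat R) CurveData.degZero_one).1 with hm₁
  have hg : Spec.map (CommRingCat.ofHom (ψ : R →+* K)) ≫ m =
      Spec.map (CommRingCat.ofHom (ψ : R →+* K)) ≫ m₁ := by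
    rw [hm, hm₁, J.pt_latMap_val, J.pt_latMap_val]
    refine congrArg Subtype.val (J.pt_congr _ _ ?_)
    rw [map_one]
    exact h
  have hgen : ∀ y, m y = J.origin := by
    intro y
    let y₀ := Spec.map (CommRingCat.ofHom (ψ : R →+* K)) (IsLocalRing.closedPoint K)
    have hy₀ : m y₀ = J.origin :=
      (congrArg (fun g : Spec (CommRingCat.of K) ⟶ J.D.P => g (IsLocalRing.closedPoint K)) hg).trans
        (J.pt_one_apply y₀)
    have hle : (y₀ : PrimeSpectrum R).asIdeal ≤ (y : PrimeSpectrum R).asIdeal := fun x hx => by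
      have h0 : (IsLocalRing.closedPoint K).asIdeal = (⊥ : Ideal K) := IsLocalRing.maximalIdeal_eq_bot
      have : (ψ : R →+* K) x = 0 :=
        h0.le (show (ψ : R →+* K) x ∈ (IsLocalRing.closedPoint K).asIdeal from hx)
      rw [hinj (this.trans (map_zero (algebraMap R K)).symm)]
      exact Submodule.zero_mem _
    have hs : (y₀ : PrimeSpectrum R) ⤳ y := (PrimeSpectrum.le_iff_specializes _ _).mp hle
    have := (hs.map m.continuous).mem_closed J.isClosed_origin (Set.mem_singleton_iff.mpr hy₀)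
    exact Set.mem_singleton_iff.mp this
  obtain ⟨U, hU, heU, -⟩ := exists_isAffineOpen_mem_and_subset (X := J.D.P) (x := J.origin)
    (U := ⊤) trivial
  obtain ⟨θ, hθ⟩ := exists_chartHom hU m (by rintro _ ⟨y, rfl⟩; rwa [hgen y])
  obtain ⟨θ₁, hθ₁⟩ := exists_chartHom hU m₁ (by rintro _ ⟨y, rfl⟩; rwa [hm₁, J.pt_one_apply y])
  have hcomp : (ψ : R →+* K).comp θ = (ψ : R →+* K).comp θ₁ := chartPt_injective hU (by
    rw [← specMap_ofHom_comp, ← specMap_ofHom_comp, Category.assoc, Category.assoc, hθ, hθ₁, hg])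
  refine Subtype.ext ?_
  show m = m₁
  rw [← hθ, ← hθ₁, RingHom.ext fun a => hinj (RingHom.congr_fun hcomp a)]

end

variable [Smooth J.D.toBase]

theorem PicData.isSeparated : IsSeparated J.D.toBase := by
  haveI : IsLocallyNoetherian J.D.P := LocallyOfFiniteType.isLocallyNoetherian J.D.toBase
  haveI : QuasiSeparated J.D.toBase := inferInstance
  refine IsSeparated.of_valuativeCriterion _ fun S => ⟨fun l₁ l₂ => ?_⟩
  obtain ⟨f, hf⟩ := Spec.map_surjective S.i₂
  letI : Algebra k S.R := f.hom.toAlgebra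
  letI : Algebra k S.K := ((algebraMap S.R S.K).comp (algebraMap k S.R)).toAlgebra
  haveI : IsScalarTower k S.R S.K := IsScalarTower.of_algebraMap_eq' rfl
  obtain ⟨W₁, hW₁, h₁⟩ := J.exists_eq_pt (R := S.R) ⟨l₁.l, l₁.fac_right.trans hf.symm⟩
  obtain ⟨W₂, hW₂, h₂⟩ := J.exists_eq_pt (R := S.R) ⟨l₂.l, l₂.fac_right.trans hf.symm⟩
  set ψ := IsScalarTower.toAlgHom k S.R S.K
  have e₁ : l₁.l = (J.pt W₁ hW₁).1 := congrArg Subtype.val h₁
  have e₂ : l₂.l = (J.pt W₂ hW₂).1 := congrArg Subtype.val h₂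
  have hK : CurveData.SameClass (M.D.latMap ψ W₁) (M.D.latMap ψ W₂) :=
    J.sameClass_of_pt_eq (CurveData.DegZero.latMap hW₁ ψ) (CurveData.DegZero.latMap hW₂ ψ)
      (Subtype.ext (by
        rw [← J.pt_latMap_val ψ hW₁, ← J.pt_latMap_val ψ hW₂, ← e₁, ← e₂]
        exact l₁.fac_left.trans l₂.fac_left.symm))
  have hd := CurveData.DegZero.mul hW₁ (CurveData.DegZero.inv hW₂)
  have h1 : CurveData.SameClass (W₁ * W₂⁻¹) 1 :=
    J.sameClass_of_pt_eq hd CurveData.degZero_one
      (J.pt_eq_pt_one (IsFractionRing.injective S.R S.K) hd (by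
        rw [map_mul, map_inv]
        have := hK.mul (CurveData.sameClass_refl (M.D.latMap ψ W₂)⁻¹)
        rwa [mul_inv_cancel] at this))
  have h12 := h1.mul (CurveData.sameClass_refl W₂)
  rw [inv_mul_cancel_right, one_mul] at h12
  exact CommSq.LiftStruct.ext (e₁.trans ((congrArg Subtype.val (J.pt_congr hW₁ hW₂ h12)).trans e₂.symm))

theorem PicData.universallyClosed [QuasiCompact J.D.toBase] : UniversallyClosed J.D.toBase := by
  refine UniversallyClosed.of_valuativeCriterion _ fun S => ?_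
  obtain ⟨f, hf⟩ := Spec.map_surjective S.i₂
  letI : Algebra k S.R := f.hom.toAlgebra
  letI : Algebra k S.K := ((algebraMap S.R S.K).comp (algebraMap k S.R)).toAlgebra
  haveI : IsScalarTower k S.R S.K := IsScalarTower.of_algebraMap_eq' rfl
  obtain ⟨W, hW, h⟩ := J.exists_eq_pt (R := S.K) ⟨S.i₁, S.commSq.w.trans (by
    rw [← hf, specBase, ← Spec.map_comp]
    rfl)⟩
  have e₁ : S.i₁ = (J.pt W hW).1 := congrArg Subtype.val h
  let Kb := AlgebraicClosure S.K
  let ρ : S.R →+* Kb := (algebraMap S.K Kb).comp (algebraMap S.R S.K)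
  obtain ⟨Rb, hRb⟩ := (LocalSubring.range ρ).exists_le_valuationSubring
  obtain ⟨hle, hloc⟩ := LocalSubring.le_def.mp hRb
  have hρ : ∀ r, ρ r ∈ Rb := fun r => hle ⟨r, rfl⟩
  have hcap : ∀ x : S.K, algebraMap S.K Kb x ∈ Rb → ∃ r, algebraMap S.R S.K r = x := by
    intro x hx
    rcases ValuationRing.isInteger_or_isInteger S.R x with ⟨r, hr⟩ | ⟨r, hr⟩
    · exact ⟨r, hr⟩
    by_cases hx0 : x = 0
    · exact ⟨0, by rw [hx0, map_zero]⟩
    have hru : IsUnit r := by
      have hm : ρ r ∈ (LocalSubring.range ρ).toSubring := ⟨r, rfl⟩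
      have hu : IsUnit (⟨ρ r, hm⟩ : (LocalSubring.range ρ).toSubring) := by
        refine hloc.map_nonunit _ (isUnit_iff_exists_inv.mpr ⟨⟨algebraMap S.K Kb x, hx⟩, ?_⟩)
        refine Subtype.ext ?_
        show ρ r * algebraMap S.K Kb x = 1
        rw [RingHom.comp_apply, hr, ← map_mul, inv_mul_cancel₀ hx0, map_one]
      obtain ⟨⟨_, s, rfl⟩, hs⟩ := isUnit_iff_exists_inv.mp hu
      refine isUnit_iff_exists_inv.mpr ⟨s, IsFractionRing.injective S.R S.K
        ((algebraMap S.K Kb).injective ?_)⟩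
      rw [map_one, map_one, map_mul, map_mul]
      exact congrArg Subtype.val hs
    exact ⟨((hru.unit⁻¹ : S.Rˣ) : S.R), by
      have := congrArg (algebraMap S.R S.K) hru.val_inv_mul
      rw [map_mul, hr, map_one] at this
      rw [eq_inv_of_mul_eq_one_left this, inv_inv]⟩
  have hk : ∀ a : k, algebraMap k Kb a ∈ Rb := fun a => by
    rw [IsScalarTower.algebraMap_apply k S.K Kb, IsScalarTower.algebraMap_apply k S.R S.K]
    exact hρ _
  letI : Algebra k Rb := ((algebraMap k Kb).codRestrict Rb hk).toAlgebra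
  haveI : IsScalarTower k Rb Kb := IsScalarTower.of_algebraMap_eq fun _ => rfl
  set ι := IsScalarTower.toAlgHom k S.K Kb
  set ιb := IsScalarTower.toAlgHom k Rb Kb
  obtain ⟨V, hV, hVW⟩ := CurveData.exists_extension Rb (M.D.latMap ι W) (CurveData.DegZero.latMap hW ι)
  set mb := (J.pt V hV).1 with hmb
  have hsq : Spec.map (CommRingCat.ofHom (ιb : Rb →+* Kb)) ≫ mb =
      Spec.map (CommRingCat.ofHom (ι : S.K →+* Kb)) ≫ S.i₁ := by
    rw [hmb, e₁, J.pt_latMap_val, J.pt_latMap_val]
    exact congrArg Subtype.val (J.pt_congr _ _ hVW)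
  obtain ⟨U, hU, hxU, -⟩ := exists_isAffineOpen_mem_and_subset (X := J.D.P)
    (x := mb (IsLocalRing.closedPoint Rb)) (U := ⊤) trivial
  have hr := range_subset_of_closedPoint_mem mb hxU
  have hri : Set.range S.i₁ ⊆ (U : Set J.D.P) := by
    refine range_subset_of_closedPoint_mem _ ?_
    have h0 : IsLocalRing.closedPoint S.K =
        Spec.map (CommRingCat.ofHom (ι : S.K →+* Kb)) (IsLocalRing.closedPoint Kb) :=
      Subsingleton.elim (α := PrimeSpectrum S.K) _ _
    rw [h0]
    have := congrArg (fun g : Spec (CommRingCat.of Kb) ⟶ J.D.P => g (IsLocalRing.closedPoint Kb)) hsq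
    exact (congrArg (fun q => q ∈ U) this).mp (hr ⟨_, rfl⟩)
  obtain ⟨θ, hθ⟩ := exists_chartHom hU S.i₁ hri
  obtain ⟨θb, hθb⟩ := exists_chartHom hU mb hr
  have hcomp : (ι : S.K →+* Kb).comp θ = (ιb : Rb →+* Kb).comp θb := chartPt_injective hU (by
    rw [← specMap_ofHom_comp, ← specMap_ofHom_comp, Category.assoc, Category.assoc, hθ, hθb, hsq])
  have hmem : ∀ a, ∃ r, algebraMap S.R S.K r = θ a := fun a => hcap _ (by
    rw [show algebraMap S.K Kb (θ a) = _ from RingHom.congr_fun hcomp a]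
    exact (θb a).2)
  have hinj := IsFractionRing.injective S.R S.K
  choose r hr' using hmem
  let θR : Γ(J.D.P, U) →+* S.R :=
    { toFun := r
      map_one' := hinj (by rw [hr', map_one, map_one])
      map_mul' := fun a b => hinj (by rw [map_mul, hr', hr', hr', map_mul])
      map_zero' := hinj (by rw [hr', map_zero, map_zero])
      map_add' := fun a b => hinj (by rw [map_add, hr', hr', hr', map_add]) }
  have hθR : (algebraMap S.R S.K).comp θR = θ := RingHom.ext hr'
  have hl : Spec.map (CommRingCat.ofHom (algebraMap S.R S.K)) ≫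
      Spec.map (CommRingCat.ofHom θR) ≫ hU.fromSpec = S.i₁ := by
    rw [← Category.assoc, specMap_ofHom_comp, hθR, hθ]
  refine ⟨⟨⟨Spec.map (CommRingCat.ofHom θR) ≫ hU.fromSpec, hl, ?_⟩⟩⟩
  obtain ⟨g, hg⟩ := Spec.map_surjective ((Spec.map (CommRingCat.ofHom θR) ≫ hU.fromSpec) ≫ J.D.toBase)
  rw [← hg, ← hf]
  refine congrArg Spec.map ?_
  haveI : Mono (CommRingCat.ofHom (algebraMap S.R S.K)) :=
    ConcreteCategory.mono_of_injective _ hinj
  rw [← cancel_mono (CommRingCat.ofHom (algebraMap S.R S.K))]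
  refine Spec.map_injective ?_
  rw [Spec.map_comp, Spec.map_comp, hg, hf, ← Category.assoc, hl]
  exact S.commSq.w

theorem PicData.isProper_aux [QuasiCompact J.D.toBase] : IsProper J.D.toBase :=
  haveI := J.isSeparated
  haveI := J.universallyClosed
  { }

end Fermat.Agent.Jac.CurveModel
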